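import Mathlib
import Fermat.Agent.S29.DefsM
import Fermat.Prelude.Def_CuspForm_HeckeGaloisRepDatum

/-!
# S30 helper (helper529): the eigenvector of the adic module layer (piece 2)

From a Kummer map `κ` on `ℚ/ℤ`-valued parabolic characters of `Γ₀(N)` and an eigen parabolic
character `c : Γ₀(N) → O` we build `f : Frac O →+ J₀(N)`, `f(x) = κ(γ ↦ ϑ(c(γ) x))`, where `ϑ`
is a nonzero character of `Frac O / O`.

The hypotheses are stated with the definitions of helper330's interface
(`KummerStatement`, `ParEigenStatement`, `eigenvalue`) unfolded, so that the theorem applies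
to them by definitional unfolding.
-/

set_option autoImplicit false
set_option linter.unusedSectionVars false

namespace Fermat.Agent.S30.H529

open Fermat.Agent.S29 ModularCurve

noncomputable section

/-- The eigenvalue function attached to `χ` (same body as helper330's `eigenvalue`). -/
def eigval {N : ℕ} [NeZero N] {S : Finset ℕ} {O : Type} [CommRing O]
    (χ : CuspForm.heckeAlgebra N 2 (↑S : Set ℕ) →+* O) (ℓ : ℕ) : O :=
  open Classical in
  if h : ℓ.Prime ∧ ¬ ℓ ∣ N ∧ ℓ ∉ (↑S : Set ℕ) then χ (CuspForm.heckeAlgebra.T h.1 h.2.1 h.2.2) else 0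

section Post

variable {N : ℕ} {A B : Type*} [AddCommGroup A] [AddCommGroup B]

/-- Parabolic characters are stable under postcomposition with additive maps. -/
theorem isParHom_postcomp {c : G0 N → A} (hc : IsParHom c) (φ : A →+ B) :
    IsParHom (fun γ => φ (c γ)) where
  map_mul γ γ' := by rw [hc.map_mul, map_add]
  parabolic γ h := by rw [hc.parabolic γ h, map_zero]
  elliptic γ n hn h := by rw [hc.elliptic γ n hn h, map_zero]

theorem isParHom_zero : IsParHom (0 : G0 N → A) where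
  map_mul _ _ := by simp
  parabolic _ _ := rfl
  elliptic _ _ _ _ := rfl

/-- The cohomological Hecke operator commutes with postcomposition. -/
theorem heckeCoh_postcomp (ℓ : ℕ) (c : G0 N → A) (φ : A →+ B) :
    heckeCoh N ℓ (fun γ => φ (c γ)) = fun γ => φ (heckeCoh N ℓ c γ) := by
  funext γ
  simp only [heckeCoh, map_sum]

end Post

section Character

variable {O : Type*} [CommRing O] [IsDomain O] [IsLocalRing O]

/-- A nonzero character of `Frac O / O`. -/
theorem exists_character_fractionRing {ϖ : O} (hϖ : ϖ ∈ IsLocalRing.maximalIdeal O)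
    (hϖ0 : ϖ ≠ 0) :
    ∃ ϑ : FractionRing O →+ AddCircle (1 : ℚ),
      (∀ r : O, ϑ (algebraMap O (FractionRing O) r) = 0) ∧ ∃ y, ϑ y ≠ 0 := by
  set H : AddSubgroup (FractionRing O) := (algebraMap O (FractionRing O)).toAddMonoidHom.range
    with hH
  set a : FractionRing O ⧸ H :=
    QuotientAddGroup.mk' H ((algebraMap O (FractionRing O) ϖ)⁻¹) with ha
  have hϖL : algebraMap O (FractionRing O) ϖ ≠ 0 := by
    intro h
    exact hϖ0 ((IsFractionRing.injective O (FractionRing O)) (by rw [h, map_zero]))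
  have ha0 : a ≠ 0 := by
    intro h
    rw [ha, QuotientAddGroup.mk'_apply, QuotientAddGroup.eq_zero_iff] at h
    obtain ⟨r, hr⟩ := h
    have hr' : algebraMap O (FractionRing O) r = (algebraMap O (FractionRing O) ϖ)⁻¹ := hr
    have h1 : algebraMap O (FractionRing O) (r * ϖ) = algebraMap O (FractionRing O) 1 := by
      rw [map_mul, hr', map_one, inv_mul_cancel₀ hϖL]
    have h2 : r * ϖ = 1 := IsFractionRing.injective O (FractionRing O) h1
    have h3 : IsUnit ϖ := IsUnit.of_mul_eq_one_right r h2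
    exact (IsLocalRing.mem_maximalIdeal ϖ).mp hϖ h3
  obtain ⟨c, hc⟩ := CharacterModule.exists_character_apply_ne_zero_of_ne_zero ha0
  let c' : (FractionRing O ⧸ H) →+ AddCircle (1 : ℚ) := c
  refine ⟨c'.comp (QuotientAddGroup.mk' H), ?_, ⟨(algebraMap O (FractionRing O) ϖ)⁻¹, hc⟩⟩
  intro r
  have h1 : QuotientAddGroup.mk' H (algebraMap O (FractionRing O) r) = 0 := by
    rw [QuotientAddGroup.mk'_apply, QuotientAddGroup.eq_zero_iff]
    exact ⟨r, rfl⟩
  rw [AddMonoidHom.comp_apply, h1, map_zero]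

end Character

section Main

variable {p : ℕ} {N : ℕ} [NeZero N] {S : Finset ℕ}
variable {O : Type} [CommRing O] [IsDomain O]

/-- The additive map `r ↦ ϑ(r x)`. -/
def twistChar (ϑ : FractionRing O →+ AddCircle (1 : ℚ)) (x : FractionRing O) :
    O →+ AddCircle (1 : ℚ) :=
  ϑ.comp ((AddMonoidHom.mulRight x).comp (algebraMap O (FractionRing O)).toAddMonoidHom)

@[simp] theorem twistChar_apply (ϑ : FractionRing O →+ AddCircle (1 : ℚ)) (x : FractionRing O)
    (r : O) : twistChar ϑ x r = ϑ (algebraMap O (FractionRing O) r * x) := rfl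

/-- **Piece 2 of the adic module layer**: the eigenvector.  The hypotheses `hK`, `hP` are the
unfolded forms of helper330's `KummerStatement N p` and `ParEigenStatement N S O χ`. -/
theorem exists_eigenHom [Fact p.Prime] [IsDiscreteValuationRing O] [CharZero O]
    (hpS : p ∈ S) (hNS : ∀ q : ℕ, q.Prime → q ∣ N → q ∈ S)
    (hpO : (p : O) ∈ IsLocalRing.maximalIdeal O)
    (χ : CuspForm.heckeAlgebra N 2 (↑S : Set ℕ) →+* O)
    (hK : ∃ κ : (G0 N → AddCircle (1 : ℚ)) → JZero N,
      (∀ c c', IsParHom c → IsParHom c' → κ (c + c') = κ c + κ c') ∧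
      (∀ c, IsParHom c → κ c = 0 → c = 0) ∧
      (∀ x : JZero N, (∃ n : ℕ, (p ^ n) • x = 0) → ∃ c, IsParHom c ∧ κ c = x) ∧
      (∀ ℓ : Nat.Primes, ¬ (ℓ : ℕ) ∣ N * p → ∀ c, IsParHom c →
        κ (heckeCoh N ℓ c) = heckeOperatorBar N ℓ (κ c)))
    (hP : ∃ c : G0 N → O, IsParHom c ∧ c ≠ 0 ∧
      ∀ (ℓ : ℕ) (hℓ : ℓ.Prime) (hℓN : ¬ ℓ ∣ N) (hℓS : ℓ ∉ (↑S : Set ℕ)) (γ : G0 N),
        heckeCoh N ℓ c γ = χ (CuspForm.heckeAlgebra.T hℓ hℓN hℓS) * c γ) :
    ∃ f : FractionRing O →+ JZero N,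
      (∀ r : O, f (algebraMap O (FractionRing O) r) = 0) ∧ f ≠ 0 ∧
      ∀ (ℓ : Nat.Primes), (ℓ : ℕ) ∉ S → ∀ x,
        heckeOperatorBar N ℓ (f x) = f (algebraMap O (FractionRing O) (eigval χ ℓ) * x) := by
  obtain ⟨κ, hκadd, hκinj, -, hκhecke⟩ := hK
  obtain ⟨c, hc, hc0, hceig⟩ := hP
  have hp : p.Prime := Fact.out
  have hϖ0 : (p : O) ≠ 0 := by exact_mod_cast hp.ne_zero
  obtain ⟨ϑ, hϑO, y, hϑy⟩ := exists_character_fractionRing hpO hϖ0
  -- the characters `c_x`
  set cx : FractionRing O → (G0 N → AddCircle (1 : ℚ)) :=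
    fun x γ => twistChar ϑ x (c γ) with hcx
  have hpar : ∀ x, IsParHom (cx x) := fun x => isParHom_postcomp hc (twistChar ϑ x)
  have hκ0 : κ 0 = 0 := by
    have h := hκadd 0 0 isParHom_zero isParHom_zero
    rw [add_zero] at h
    exact left_eq_add.mp h
  have hcx_add : ∀ x x', cx (x + x') = cx x + cx x' := by
    intro x x'
    funext γ
    simp only [hcx, twistChar_apply, Pi.add_apply, mul_add, map_add]
  have hcx_int : ∀ r : O, cx (algebraMap O (FractionRing O) r) = 0 := by
    intro r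
    funext γ
    simp only [hcx, twistChar_apply, Pi.zero_apply]
    rw [← (algebraMap O (FractionRing O)).map_mul]
    exact hϑO _
  have hcx_zero : cx 0 = 0 := by
    have := hcx_int 0
    rwa [map_zero] at this
  let f : FractionRing O →+ JZero N :=
    { toFun := fun x => κ (cx x)
      map_zero' := by rw [hcx_zero, hκ0]
      map_add' := fun x x' => by rw [hcx_add, hκadd _ _ (hpar x) (hpar x')] }
  have hf : ∀ x, f x = κ (cx x) := fun _ => rfl
  refine ⟨f, ?_, ?_, ?_⟩
  · intro r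
    rw [hf, hcx_int, hκ0]
  · -- nonvanishing
    intro h0
    obtain ⟨γ₀, hγ₀⟩ : ∃ γ, c γ ≠ 0 := by
      by_contra hcon
      exact hc0 (funext fun γ => not_not.mp (not_exists.mp hcon γ))
    have hγL : algebraMap O (FractionRing O) (c γ₀) ≠ 0 := by
      intro h
      exact hγ₀ ((IsFractionRing.injective O (FractionRing O)) (by rw [h, map_zero]))
    set x₀ : FractionRing O := (algebraMap O (FractionRing O) (c γ₀))⁻¹ * y with hx₀
    have h1 : f x₀ = 0 := by rw [h0]; rfl
    have h2 := hκinj _ (hpar x₀) h1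
    have h3 := congrFun h2 γ₀
    simp only [hcx, twistChar_apply, Pi.zero_apply] at h3
    rw [hx₀, ← mul_assoc, mul_inv_cancel₀ hγL, one_mul] at h3
    exact hϑy h3
  · -- Hecke equivariance
    intro ℓ hℓS x
    have hℓNp : ¬ (ℓ : ℕ) ∣ N * p := by
      intro h
      rcases (Nat.Prime.dvd_mul ℓ.2).mp h with h | h
      · exact hℓS (hNS ℓ ℓ.2 h)
      · have : (ℓ : ℕ) = p := (Nat.prime_dvd_prime_iff_eq ℓ.2 hp).mp h
        rw [this] at hℓS
        exact hℓS hpS
    have hℓN : ¬ (ℓ : ℕ) ∣ N := fun h => hℓS (hNS ℓ ℓ.2 h)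
    have hℓS' : (ℓ : ℕ) ∉ (↑S : Set ℕ) := fun h => hℓS (Finset.mem_coe.mp h)
    have hev : eigval χ ℓ = χ (CuspForm.heckeAlgebra.T ℓ.2 hℓN hℓS') := by
      unfold eigval
      rw [dif_pos ⟨ℓ.2, hℓN, hℓS'⟩]
    rw [hf, hf, ← hκhecke ℓ hℓNp _ (hpar x)]
    congr 1
    have h1 := heckeCoh_postcomp (N := N) (ℓ : ℕ) c (twistChar ϑ x)
    have h2 : (fun γ => twistChar ϑ x (c γ)) = cx x := rfl
    rw [h2] at h1
    rw [h1]
    funext γ
    simp only [hcx, twistChar_apply]
    rw [hceig ℓ ℓ.2 hℓN hℓS' γ, hev, (algebraMap O (FractionRing O)).map_mul]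
    congr 1
    ring

end Main

end

end Fermat.Agent.S30.H529
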