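import Mathlib
import Fermat.Agent.S29.DefsM
import Fermat.Agent.S30.H529.EigenHom

/-!
# S30 helper (helper529): finiteness of the `p`-torsion of `J₀(N)` from the Kummer map (piece 3)

`Γ₀(N)` is finitely generated (Schreier + `SL(2,ℤ) = ⟨S, T⟩`), so there are finitely many
characters `Γ₀(N) → (ℚ/ℤ)[p]`; the Kummer map is onto the `p`-torsion.
-/

set_option autoImplicit false
set_option linter.unusedSectionVars false

namespace Fermat.Agent.S30.H529

open Fermat.Agent.S29 ModularCurve
open scoped MatrixGroups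

noncomputable section

instance fg_SL2Z : Group.FG SL(2, ℤ) := by
  rw [Group.fg_iff]
  exact ⟨{ModularGroup.S, ModularGroup.T}, _root_.SpecialLinearGroup.SL2Z_generators,
    Set.toFinite _⟩

instance fg_G0 (N : ℕ) [NeZero N] : Group.FG (G0 N) :=
  Subgroup.fg_of_index_ne_zero (H := CongruenceSubgroup.Gamma0 N)

section Characters

variable {N : ℕ} {A : Type*} [AddCommGroup A]

/-- The multiplicative homomorphism attached to a parabolic character. -/
def parHomToMonoidHom {c : G0 N → A} (hc : IsParHom c) : G0 N →* Multiplicative A where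
  toFun γ := Multiplicative.ofAdd (c γ)
  map_one' := by
    have h := hc.map_mul 1 1
    rw [mul_one] at h
    have h0 : c 1 = 0 := left_eq_add.mp h
    rw [h0]
    rfl
  map_mul' γ γ' := by
    rw [hc.map_mul]
    rfl

/-- Parabolic characters with values in a finite subset are finite in number. -/
theorem finite_parHom [NeZero N] (V : Set A) (hV : V.Finite) :
    {c : G0 N → A | IsParHom c ∧ ∀ γ, c γ ∈ V}.Finite := by
  obtain ⟨T, hT, hTfin⟩ := Group.fg_iff.mp (fg_G0 N)
  have hTf : Finite T := hTfin.to_subtype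
  have hVf : Finite V := hV.to_subtype
  let Φ : {c : G0 N → A // IsParHom c ∧ ∀ γ, c γ ∈ V} → (T → V) :=
    fun c γ => ⟨c.1 γ.1, c.2.2 γ.1⟩
  have hΦ : Function.Injective Φ := by
    intro c c' h
    apply Subtype.ext
    have h1 : parHomToMonoidHom c.2.1 = parHomToMonoidHom c'.2.1 := by
      apply MonoidHom.eq_of_eqOn_dense hT
      intro γ hγ
      have := congrFun h ⟨γ, hγ⟩
      have h2 : c.1 γ = c'.1 γ := congrArg Subtype.val this
      show Multiplicative.ofAdd (c.1 γ) = Multiplicative.ofAdd (c'.1 γ)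
      rw [h2]
    funext γ
    have h3 := congrArg (fun φ : G0 N →* Multiplicative A => Multiplicative.toAdd (φ γ)) h1
    exact h3
  have : Finite {c : G0 N → A // IsParHom c ∧ ∀ γ, c γ ∈ V} := Finite.of_injective Φ hΦ
  exact Set.finite_coe_iff.mp this

end Characters

section Main

variable {p : ℕ} {N : ℕ} [NeZero N]

/-- **Piece 3 of the adic module layer**: `J₀(N)[p]` is finite.  The hypothesis is the unfolded
form of helper330's `KummerStatement N p`. -/
theorem finite_torsion [Fact p.Prime]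
    (hK : ∃ κ : (G0 N → AddCircle (1 : ℚ)) → JZero N,
      (∀ c c', IsParHom c → IsParHom c' → κ (c + c') = κ c + κ c') ∧
      (∀ c, IsParHom c → κ c = 0 → c = 0) ∧
      (∀ x : JZero N, (∃ n : ℕ, (p ^ n) • x = 0) → ∃ c, IsParHom c ∧ κ c = x) ∧
      (∀ ℓ : Nat.Primes, ¬ (ℓ : ℕ) ∣ N * p → ∀ c, IsParHom c →
        κ (heckeCoh N ℓ c) = heckeOperatorBar N ℓ (κ c))) :
    {x : JZero N | p • x = 0}.Finite := by
  obtain ⟨κ, hκadd, hκinj, hκsurj, -⟩ := hK
  have hp : p.Prime := Fact.out
  have hκ0 : κ 0 = 0 := by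
    have h := hκadd 0 0 isParHom_zero isParHom_zero
    rw [add_zero] at h
    exact left_eq_add.mp h
  have hnpar : ∀ (n : ℕ) (c : G0 N → AddCircle (1 : ℚ)), IsParHom c → IsParHom (n • c) :=
    fun n c hc => isParHom_postcomp hc (nsmulAddMonoidHom n)
  have hκn : ∀ (n : ℕ) (c : G0 N → AddCircle (1 : ℚ)), IsParHom c → κ (n • c) = n • κ c := by
    intro n c hc
    induction n with
    | zero => simp [hκ0]
    | succ n ih =>
      rw [succ_nsmul, succ_nsmul, hκadd _ _ (hnpar n c hc) hc, ih]
  have hfin := finite_parHom (N := N) {u : AddCircle (1 : ℚ) | p • u = 0}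
    (AddCircle.finite_torsion (1 : ℚ) hp.pos)
  refine Set.Finite.subset (hfin.image κ) ?_
  intro x hx
  obtain ⟨c, hc, rfl⟩ := hκsurj x ⟨1, by simpa using hx⟩
  refine ⟨c, ⟨hc, ?_⟩, rfl⟩
  have h1 : κ (p • c) = 0 := by
    rw [hκn p c hc]
    exact hx
  have h2 := hκinj _ (hnpar p c hc) h1
  intro γ
  exact congrFun h2 γ

end Main

end

end Fermat.Agent.S30.H529
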