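import Mathlib
import Fermat.Prelude.Def_GaloisRep_Adic
import Fermat.Agent.S29.Defs
import Fermat.Agent.S30.H529.AdicEigen

/-!
# S30 helper (helper529): the adic module `Hom(L/O, J)` — piece 1 of the adic module layer

`adicModule_of_torsion`: the statement of the piece `adicModule_of_torsion` of the adic module
layer (interface of helper330), proved from `TateCore` applied to the `O`-module
`X = Hom_ℤ(O, J)` (`O` acting by precomposition).
-/

set_option autoImplicit false
set_option linter.unusedSectionVars false

namespace Fermat.Agent.S30.H529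

open IsLocalRing

noncomputable section

/-- `Hom_ℤ(O, J)` with `O` acting by precomposition. -/
def PreHom (O J : Type*) [CommRing O] [AddCommGroup J] : Type _ := O →+ J

namespace PreHom

variable {O J : Type*} [CommRing O] [AddCommGroup J]

instance : AddCommGroup (PreHom O J) := inferInstanceAs (AddCommGroup (O →+ J))

/-- The underlying homomorphism. -/
def toHom (h : PreHom O J) : O →+ J := h

/-- The element attached to a homomorphism. -/
def ofHom (h : O →+ J) : PreHom O J := h

@[simp] theorem toHom_ofHom (h : O →+ J) : toHom (ofHom h) = h := rfl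

@[simp] theorem toHom_add (h h' : PreHom O J) : toHom (h + h') = toHom h + toHom h' := rfl

@[simp] theorem toHom_zero : toHom (0 : PreHom O J) = 0 := rfl

@[simp] theorem toHom_sub (h h' : PreHom O J) : toHom (h - h') = toHom h - toHom h' := rfl

@[simp] theorem toHom_neg (h : PreHom O J) : toHom (-h) = -toHom h := rfl

theorem ext {h h' : PreHom O J} (H : ∀ x, toHom h x = toHom h' x) : h = h' :=
  AddMonoidHom.ext H

theorem ext_iff' {h h' : PreHom O J} : h = h' ↔ ∀ x, toHom h x = toHom h' x :=
  ⟨fun H _ => by rw [H], ext⟩

instance : SMul O (PreHom O J) where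
  smul a h := ofHom ((toHom h).comp (AddMonoidHom.mulLeft a))

@[simp] theorem smul_apply (a : O) (h : PreHom O J) (x : O) :
    toHom (a • h) x = toHom h (a * x) := rfl

instance : Module O (PreHom O J) where
  one_smul h := ext fun x => by simp
  mul_smul a b h := ext fun x => by
    simp only [smul_apply]
    congr 1
    ring
  smul_zero a := ext fun x => by simp
  smul_add a h h' := ext fun x => by simp
  add_smul a b h := ext fun x => by
    simp only [smul_apply, toHom_add, AddMonoidHom.add_apply, add_mul, map_add]
  zero_smul h := ext fun x => by simp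

/-- Postcomposition with an endomorphism of `J`. -/
def post (φ : J →+ J) : PreHom O J →ₗ[O] PreHom O J where
  toFun h := ofHom (φ.comp (toHom h))
  map_add' h h' := ext fun x => by simp
  map_smul' a h := ext fun x => by simp

@[simp] theorem post_apply (φ : J →+ J) (h : PreHom O J) (x : O) :
    toHom (post φ h) x = φ (toHom h x) := rfl

theorem natCast_pow_smul_apply (p n : ℕ) (h : PreHom O J) (x : O) :
    toHom (((p : O)) ^ n • h) x = p ^ n • toHom h x := by
  rw [smul_apply]
  have h1 : ((p : O)) ^ n * x = (p ^ n) • x := by
    rw [nsmul_eq_mul]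
    push_cast
    rfl
  rw [h1, map_nsmul]

theorem natCast_smul_apply (n : ℕ) (h : PreHom O J) (x : O) :
    toHom ((n : O) • h) x = n • toHom h x := by
  rw [smul_apply]
  have h1 : (n : O) * x = n • x := by
    rw [nsmul_eq_mul]
  rw [h1, map_nsmul]

end PreHom

section Finiteness

variable {O : Type*} [CommRing O] [IsDomain O] [IsDiscreteValuationRing O]
  [Finite (ResidueField O)]
variable {J : Type*} [AddCommGroup J]

theorem finite_quotient_maximalIdeal_pow (N : ℕ) : Finite (O ⧸ maximalIdeal O ^ N) := by
  have h1 : Finite (O ⧸ maximalIdeal O) := inferInstanceAs (Finite (ResidueField O))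
  exact Ideal.finite_quotient_pow (IsNoetherian.noetherian _) N

/-- The `p`-torsion of `Hom(O, J)` is finite. -/
theorem preHom_torsion_finite (p : ℕ) (hp0 : (p : O) ≠ 0)
    (hfin : {x : J | p • x = 0}.Finite) :
    {h : PreHom O J | (p : O) • h = 0}.Finite := by
  obtain ⟨N, hN⟩ := exists_pow_maximalIdeal_le_span hp0
  have hQ : Finite (O ⧸ maximalIdeal O ^ N) := finite_quotient_maximalIdeal_pow N
  have hJ : Finite {x : J // p • x = 0} := Set.finite_coe_iff.mpr hfin
  have hval : ∀ (h : PreHom O J), (p : O) • h = 0 → ∀ y : O, p • PreHom.toHom h y = 0 := by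
    intro h hh y
    have h1 := PreHom.natCast_smul_apply p h y
    rw [hh] at h1
    rw [← h1]
    rfl
  let Φ : {h : PreHom O J // (p : O) • h = 0} →
      ((O ⧸ maximalIdeal O ^ N) → {x : J // p • x = 0}) :=
    fun h q => ⟨PreHom.toHom h.1 (Quotient.out q), hval h.1 h.2 _⟩
  have hΦ : Function.Injective Φ := by
    intro h h' hh
    apply Subtype.ext
    apply PreHom.ext
    intro x
    have hx : x - Quotient.out (Ideal.Quotient.mk (maximalIdeal O ^ N) x)
        ∈ maximalIdeal O ^ N := by
      rw [← Ideal.Quotient.eq]
      exact (Quotient.out_eq _).symm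
    obtain ⟨y, hy⟩ := Ideal.mem_span_singleton'.mp (hN hx)
    have key : ∀ g : {h : PreHom O J // (p : O) • h = 0},
        PreHom.toHom g.1 x
          = PreHom.toHom g.1 (Quotient.out (Ideal.Quotient.mk (maximalIdeal O ^ N) x)) := by
      intro g
      have h2 : x = Quotient.out (Ideal.Quotient.mk (maximalIdeal O ^ N) x) + (p : O) * y := by
        rw [mul_comm, hy]
        ring
      have h3 : PreHom.toHom g.1 ((p : O) * y) = 0 := by
        have := PreHom.smul_apply (p : O) g.1 y
        rw [g.2] at this
        exact this.symm
      conv_lhs => rw [h2]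
      rw [map_add, h3, add_zero]
    rw [key h, key h']
    have := congrFun hh (Ideal.Quotient.mk (maximalIdeal O ^ N) x)
    exact congrArg Subtype.val this
  have : Finite {h : PreHom O J // (p : O) • h = 0} := Finite.of_injective Φ hΦ
  exact Set.finite_coe_iff.mp this

end Finiteness

section Main

open Fermat.Agent.S29

variable {O : Type} [CommRing O] [IsDomain O]
variable {J : Type} [AddCommGroup J] [DistribMulAction GQ J]

/-- The action of the Galois group on `Hom(O, J)`. -/
def preHomRep (O : Type) [CommRing O] (J : Type) [AddCommGroup J] [DistribMulAction GQ J] :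
    GQ →* Module.End O (PreHom O J) where
  toFun σ := PreHom.post (DistribSMul.toAddMonoidHom J σ)
  map_one' := by
    apply LinearMap.ext
    intro h
    apply PreHom.ext
    intro x
    simp
  map_mul' σ τ := by
    apply LinearMap.ext
    intro h
    apply PreHom.ext
    intro x
    simp [mul_smul]

@[simp] theorem preHomRep_apply (σ : GQ) (h : PreHom O J) (x : O) :
    PreHom.toHom (preHomRep O J σ h) x = σ • PreHom.toHom h x := rfl

/-- The sequence attached to a homomorphism `L/O → J`. -/
def seqOfHom (p : ℕ) (f : FractionRing O →+ J) (n : ℕ) : PreHom O J :=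
  PreHom.ofHom (f.comp ((AddMonoidHom.mulRight
    ((algebraMap O (FractionRing O) (p : O) ^ (n + 1))⁻¹)).comp
      (algebraMap O (FractionRing O)).toAddMonoidHom))

theorem seqOfHom_apply (p : ℕ) (f : FractionRing O →+ J) (n : ℕ) (x : O) :
    PreHom.toHom (seqOfHom p f n) x
      = f (algebraMap O (FractionRing O) x
          * (algebraMap O (FractionRing O) (p : O) ^ (n + 1))⁻¹) := rfl

/-- **Piece 1 of the adic module layer** (statement of helper330's `adicModule_of_torsion`). -/
theorem adicModule_of_torsion
    {p : ℕ} (hp : p.Prime)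
    {O : Type} [CommRing O] [IsDomain O] [IsDiscreteValuationRing O]
    [IsAdicComplete (IsLocalRing.maximalIdeal O) O] [Finite (IsLocalRing.ResidueField O)]
    [CharZero O] (hpO : (p : O) ∈ IsLocalRing.maximalIdeal O)
    {J : Type} [AddCommGroup J] [DistribMulAction GQ J]
    (hsm : ∀ x : J, ∃ L : IntermediateField ℚ (AlgebraicClosure ℚ), FiniteDimensional ℚ L ∧
      ∀ σ : GQ, (∀ y ∈ L, σ y = y) → σ • x = x)
    (hfin : {x : J | p • x = 0}.Finite)
    {ι : Type} (t : ι → J →+ J) (ht : ∀ i (σ : GQ) (x : J), σ • t i x = t i (σ • x))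
    (a : ι → O)
    (f : FractionRing O →+ J) (hf0 : ∀ r : O, f (algebraMap O (FractionRing O) r) = 0)
    (hf : f ≠ 0)
    (hfe : ∀ i x, t i (f x) = f (algebraMap O (FractionRing O) (a i) * x)) :
    ∃ (M : Type) (_ : AddCommGroup M) (_ : Module O M) (_ : Module.Free O M)
      (_ : Module.Finite O M) (ρ : GQ →* Module.End O M),
      Nontrivial M ∧ GaloisActionIsAdicContinuous O ρ ∧
      (∀ σ : GQ, (∀ x : J, (∃ n : ℕ, p ^ n • x = 0) → σ • x = x) → ρ σ = 1) ∧
      (∀ (i : ι) (n : ℕ) (σ : GQ),
        (∀ x : J, (∃ k : ℕ, p ^ k • x = 0) → σ • σ • x - t i (σ • x) + n • x = 0) →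
        ρ σ * ρ σ - a i • ρ σ + (n : O) • (1 : Module.End O M) = 0) := by
  have hϖ0 : (p : O) ≠ 0 := by exact_mod_cast hp.ne_zero
  have hpL : algebraMap O (FractionRing O) (p : O) ≠ 0 := by
    intro h
    exact hϖ0 ((IsFractionRing.injective O (FractionRing O)) (by rw [h, map_zero]))
  -- operators
  set t' : ι → PreHom O J →ₗ[O] PreHom O J := fun i => PreHom.post (t i) with ht'
  have hρ : ∀ (σ : GQ) (i : ι) (h : PreHom O J),
      preHomRep O J σ (t' i h) = t' i (preHomRep O J σ h) := by
    intro σ i h
    apply PreHom.ext
    intro x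
    simp only [ht', preHomRep_apply, PreHom.post_apply]
    exact ht i σ _
  -- finiteness
  have hX : ∃ Y : Submodule O (PreHom O J), Y.FG ∧
      ∀ h : PreHom O J, (p : O) • h = 0 → h ∈ Y := by
    have hfinX := preHom_torsion_finite (O := O) (J := J) p hϖ0 hfin
    exact ⟨Submodule.span O {h : PreHom O J | (p : O) • h = 0},
      Submodule.fg_span hfinX, fun h hh => Submodule.subset_span hh⟩
  have hfree := tateEigen_free (t := t') (a := a) hpO hϖ0 hX
  have hfinite := tateEigen_finite (t := t') (a := a) hpO hϖ0 hX
  -- torsion values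
  have hval : ∀ (k : ℕ) (h : PreHom O J), (p : O) ^ k • h = 0 →
      ∀ x : O, p ^ k • PreHom.toHom h x = 0 := by
    intro k h hh x
    rw [← PreHom.natCast_pow_smul_apply, hh]
    rfl
  refine ⟨tateEigen (p : O) t' a, inferInstance, inferInstance, hfree, hfinite,
    tateRep (preHomRep O J) hρ, ?_, ?_, ?_, ?_⟩
  · -- nontrivial
    have hmem : seqOfHom p f ∈ tateEigen (p : O) t' a := by
      refine ⟨?_, ?_, ?_⟩
      · apply PreHom.ext
        intro x
        rw [PreHom.smul_apply, seqOfHom_apply, (algebraMap O (FractionRing O)).map_mul]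
        have : algebraMap O (FractionRing O) (p : O) * algebraMap O (FractionRing O) x
            * (algebraMap O (FractionRing O) (p : O) ^ (0 + 1))⁻¹
            = algebraMap O (FractionRing O) x := by
          field_simp
          ring
        rw [this, hf0]
        rfl
      · intro n
        apply PreHom.ext
        intro x
        rw [PreHom.smul_apply, seqOfHom_apply, seqOfHom_apply,
          (algebraMap O (FractionRing O)).map_mul]
        congr 1
        field_simp
        ring
      · intro i n
        apply PreHom.ext
        intro x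
        rw [PreHom.smul_apply, seqOfHom_apply]
        simp only [ht', PreHom.post_apply]
        rw [seqOfHom_apply, hfe, (algebraMap O (FractionRing O)).map_mul, mul_assoc]
    have hne : seqOfHom p f ≠ 0 := by
      intro h0
      apply hf
      apply AddMonoidHom.ext
      intro y
      obtain ⟨x, s, hs, rfl⟩ := IsFractionRing.div_surjective (A := O) y
      have hs0 : s ≠ 0 := nonZeroDivisors.ne_zero hs
      obtain ⟨k, c, hc⟩ := exists_dvd_pow_of_mem_maximalIdeal hpO hs0
      have h1 := congrArg (fun h => PreHom.toHom h (x * c * (p : O))) (congrFun h0 k)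
      simp only [seqOfHom_apply] at h1
      have hsL : algebraMap O (FractionRing O) s ≠ 0 := by
        intro h
        exact hs0 ((IsFractionRing.injective O (FractionRing O)) (by rw [h, map_zero]))
      have h2 : algebraMap O (FractionRing O) (x * c * (p : O))
          * (algebraMap O (FractionRing O) (p : O) ^ (k + 1))⁻¹
          = algebraMap O (FractionRing O) x / algebraMap O (FractionRing O) s := by
        have h3 : algebraMap O (FractionRing O) (p : O) ^ k
            = algebraMap O (FractionRing O) s * algebraMap O (FractionRing O) c := by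
          rw [← map_pow, hc, map_mul]
        rw [pow_succ, h3, (algebraMap O (FractionRing O)).map_mul,
          (algebraMap O (FractionRing O)).map_mul]
        have hcL : algebraMap O (FractionRing O) c ≠ 0 := by
          intro h
          rw [h, mul_zero] at h3
          exact hpL (pow_eq_zero_iff (by
            intro hk
            subst hk
            simp at h3) |>.mp h3)
        field_simp
      rw [h2] at h1
      rw [h1]
      rfl
    refine ⟨⟨⟨seqOfHom p f, hmem⟩, 0, ?_⟩⟩
    intro h
    exact hne (congrArg Subtype.val h)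
  · -- continuity
    intro n
    obtain ⟨L, hL, hLfix⟩ := exists_common_level {x : J | p ^ n • x = 0}
      (finite_torsion_pow J p hfin n) (fun x _ => hsm x)
    refine ⟨L, hL, fun σ hσ m => ?_⟩
    apply tateRep_sub_mem (preHomRep O J) hρ hpO n σ
    intro h hh
    apply PreHom.ext
    intro x
    rw [preHomRep_apply]
    exact hLfix σ hσ _ (hval n h hh x)
  · -- trivial action
    intro σ hσ
    apply tateRep_eq_one
    rintro h ⟨k, hh⟩
    apply PreHom.ext
    intro x
    rw [preHomRep_apply]
    exact hσ _ ⟨k, hval k h hh x⟩
  · -- quadratic relations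
    intro i n σ hσ
    apply tateRep_quadratic
    rintro h ⟨k, hh⟩
    apply PreHom.ext
    intro x
    have h1 := hσ (PreHom.toHom h x) ⟨k, hval k h hh x⟩
    simp only [ht', PreHom.toHom_add, PreHom.toHom_sub, AddMonoidHom.add_apply,
      AddMonoidHom.sub_apply, preHomRep_apply, PreHom.post_apply, PreHom.natCast_smul_apply,
      PreHom.toHom_zero, AddMonoidHom.zero_apply]
    exact h1

end Main

end

end Fermat.Agent.S30.H529
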