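import Mathlib
import Fermat.Agent.S29.DefsM
import Fermat.Prelude.Def_CuspForm_HeckeGaloisRepDatum
import Fermat.Agent.S30.H529.HomTate
import Fermat.Agent.S30.H529.EigenHom
import Fermat.Agent.S30.H529.FiniteTorsion

/-!
# S30 helper (helper529): assembly of the adic module layer (piece 4)

`hasAdicFrobModule_of_inputs`: from the inputs (K) Kummer map, (P) eigen parabolic character,
(T) torsion relations, (Sm) smoothness, (GH) Galois–Hecke commutation — all stated as the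
UNFOLDED forms of helper330's interface definitions — the adic Frobenius module
(unfolded form of `HasAdicFrobModule O (N * p) (· ∉ S) (eigenvalue χ)`).
-/

set_option autoImplicit false
set_option linter.unusedSectionVars false

namespace Fermat.Agent.S30.H529

open Fermat.Agent.S29 ModularCurve

noncomputable section

theorem hasAdicFrobModule_of_inputs {p : ℕ} [Fact p.Prime] {N : ℕ} [NeZero N] {S : Finset ℕ}
    (hpS : p ∈ S) (hNS : ∀ q : ℕ, q.Prime → q ∣ N → q ∈ S)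
    {O : Type} [CommRing O] [IsDomain O] [IsDiscreteValuationRing O]
    [IsAdicComplete (IsLocalRing.maximalIdeal O) O] [Finite (IsLocalRing.ResidueField O)]
    [CharZero O] (hpO : (p : O) ∈ IsLocalRing.maximalIdeal O)
    (χ : CuspForm.heckeAlgebra N 2 (↑S : Set ℕ) →+* O)
    (hK : ∃ κ : (G0 N → AddCircle (1 : ℚ)) → JZero N,
      (∀ c c', IsParHom c → IsParHom c' → κ (c + c') = κ c + κ c') ∧
      (∀ c, IsParHom c → κ c = 0 → c = 0) ∧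
      (∀ x : JZero N, (∃ n : ℕ, (p ^ n) • x = 0) → ∃ c, IsParHom c ∧ κ c = x) ∧
      (∀ ℓ : Nat.Primes, ¬ (ℓ : ℕ) ∣ N * p → ∀ c, IsParHom c →
        κ (heckeCoh N ℓ c) = heckeOperatorBar N ℓ (κ c)))
    (hP : ∃ c : G0 N → O, IsParHom c ∧ c ≠ 0 ∧
      ∀ (ℓ : ℕ) (hℓ : ℓ.Prime) (hℓN : ¬ ℓ ∣ N) (hℓS : ℓ ∉ (↑S : Set ℕ)) (γ : G0 N),
        heckeCoh N ℓ c γ = χ (CuspForm.heckeAlgebra.T hℓ hℓN hℓS) * c γ)
    (hT : ∀ (ℓ : ℕ) (hℓ : ℓ.Prime), ¬ ℓ ∣ N * p → ∀ A : VQ, A.LiesOverPrime ℓ →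
      (∀ σ ∈ A.inertiaSubgroupIn ℚ, ∀ x : JZero N, (∃ n : ℕ, (p ^ n) • x = 0) → σ • x = x) ∧
      (∀ σ : GQ, A.IsFrobeniusAt σ ℓ → ∀ x : JZero N, (∃ n : ℕ, (p ^ n) • x = 0) →
        σ • σ • x - heckeOperatorBar N ⟨ℓ, hℓ⟩ (σ • x) + ℓ • x = 0))
    (hSm : ∀ x : JZero N, ∃ L : IntermediateField ℚ (AlgebraicClosure ℚ),
      FiniteDimensional ℚ L ∧ ∀ σ : GQ, (∀ y ∈ L, σ y = y) → σ • x = x)
    (hGH : ∀ (σ : GQ) (ℓ : Nat.Primes) (x : JZero N),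
      σ • heckeOperatorBar N ℓ x = heckeOperatorBar N ℓ (σ • x)) :
    ∃ (M : Type) (_ : AddCommGroup M) (_ : Module O M) (_ : Module.Free O M)
      (_ : Module.Finite O M) (ρ : GQ →* Module.End O M),
      Nontrivial M ∧ GaloisActionIsAdicContinuous O ρ ∧
      (∀ ℓ : ℕ, ℓ.Prime → ¬ ℓ ∣ N * p → ∀ A : VQ, A.LiesOverPrime ℓ →
        ∀ σ ∈ A.inertiaSubgroupIn ℚ, ρ σ = 1) ∧
      (∀ ℓ : ℕ, ℓ.Prime → ℓ ∉ S → ∀ A : VQ, A.LiesOverPrime ℓ →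
        ∀ σ : GQ, A.IsFrobeniusAt σ ℓ →
          ρ σ * ρ σ - eigval χ ℓ • ρ σ + (ℓ : O) • (1 : Module.End O M) = 0) := by
  have hp : p.Prime := Fact.out
  obtain ⟨f, hf0, hf, hfe⟩ := exists_eigenHom hpS hNS hpO χ hK hP
  have hfin := finite_torsion (p := p) (N := N) hK
  obtain ⟨M, i1, i2, i3, i4, ρ, hnt, hcont, htriv, hquad⟩ :=
    adicModule_of_torsion (ι := {ℓ : Nat.Primes // (ℓ : ℕ) ∉ S}) hp hpO hSm hfin
      (fun i => (heckeOperatorBar N i.1).toAddMonoidHom)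
      (fun i σ x => hGH σ i.1 x)
      (fun i => eigval χ i.1) f hf0 hf (fun i x => hfe i.1 i.2 x)
  refine ⟨M, i1, i2, i3, i4, ρ, hnt, hcont, ?_, ?_⟩
  · intro ℓ hℓ hℓNp A hA σ hσ
    exact htriv σ ((hT ℓ hℓ hℓNp A hA).1 σ hσ)
  · intro ℓ hℓ hℓS A hA σ hσ
    have hℓNp : ¬ ℓ ∣ N * p := by
      intro h
      rcases (Nat.Prime.dvd_mul hℓ).mp h with h | h
      · exact hℓS (hNS ℓ hℓ h)
      · have : ℓ = p := (Nat.prime_dvd_prime_iff_eq hℓ hp).mp h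
        rw [this] at hℓS
        exact hℓS hpS
    exact hquad ⟨⟨ℓ, hℓ⟩, hℓS⟩ ℓ σ ((hT ℓ hℓ hℓNp A hA).2 σ hσ)

end

end Fermat.Agent.S30.H529
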